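import Mathlib
import Fermat.Agent.S05.Core.Defs
import Fermat.Agent.S05.Core.Formulas

/-!
# S13 / LadderH (hedge for DP → PCore; owner helper12): definitions (FROZEN)

`x`-only Montgomery ladder polynomials for the curve `Y² = X (X - α) (X - β)`.
A pair `(U, V)` of polynomials stands for the projective abscissa `U / V`.

* `dbl α β (U, V)`   : the abscissa of `2R` from the abscissa `U / V` of `R`;
* `dadd α β q q'`    : the abscissa of `A + B` from the abscissas `q ↔ B`, `q' ↔ A`, when `A - B` is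
  the generic point (abscissa `X`);  `wpoly q q' = U' V - U V'` and the new denominator is `wpoly²`;
* `UV α β n = (U n, V n)` : the abscissa of `n • Q` for the generic point `Q` (abscissa `X`):
  `UV 0 = (1, 0)`, `UV 1 = (X, 1)`, `UV (2k) = dbl (UV k)`, `UV (2k+1) = dadd (UV k) (UV (k+1))`;
* `Deg n q` : degree data (`q.1` monic of degree `n²`; `q.2` of degree `n² - 1`, leading coeff `n²`);
* `Spec M R u w` : the pair `(u : w)` of field elements represents the abscissa of the point `R`
  of the model `M` (`w = 0 ∧ u ≠ 0` if `R = 0`; otherwise `w ≠ 0` and `X(R) = u / w`).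
-/

set_option autoImplicit false

namespace Fermat.Agent.S13.LadderH

open Polynomial Fermat.Agent.S05

section Ring

variable {R : Type*} [CommRing R]

/-- Doubling of a projective abscissa. -/
noncomputable def dbl (α β : R) (q : R[X] × R[X]) : R[X] × R[X] :=
  ((q.1 ^ 2 - C (α * β) * q.2 ^ 2) ^ 2,
    4 * q.1 * q.2 * (q.1 ^ 2 - C (α + β) * q.1 * q.2 + C (α * β) * q.2 ^ 2))

/-- `U' V - U V'` for `q = (U, V)`, `q' = (U', V')`. -/
noncomputable def wpoly (q q' : R[X] × R[X]) : R[X] := q'.1 * q.2 - q.1 * q'.2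

/-- Differential addition of projective abscissas (difference = the generic point `X`). -/
noncomputable def dadd (α β : R) (q q' : R[X] × R[X]) : R[X] × R[X] :=
  (2 * ((q'.1 * q.2 + q.1 * q'.2) * (q'.1 * q.1 + C (α * β) * q'.2 * q.2)
      - 2 * C (α + β) * q'.1 * q.1 * q'.2 * q.2) - X * wpoly q q' ^ 2,
    wpoly q q' ^ 2)

/-- The ladder polynomials: `UV α β n = (U n, V n)` with `X(n • Q) = U n (x) / V n (x)`. -/
noncomputable def UV (α β : R) : ℕ → R[X] × R[X]
  | 0 => (1, 0)
  | 1 => (X, 1)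
  | (n + 2) =>
    if _h : n % 2 = 0 then dbl α β (UV α β (n / 2 + 1))
    else dadd α β (UV α β (n / 2 + 1)) (UV α β (n / 2 + 2))
termination_by n => n
decreasing_by all_goals omega

theorem UV_zero (α β : R) : UV α β 0 = (1, 0) := by
  rw [UV]

theorem UV_one (α β : R) : UV α β 1 = (X, 1) := by
  rw [UV]

theorem UV_even (α β : R) (k : ℕ) : UV α β (2 * k) = dbl α β (UV α β k) := by
  cases k with
  | zero => simp [UV_zero, dbl]
  | succ j =>
    have h : 2 * (j + 1) = 2 * j + 2 := by ring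
    rw [h, UV]
    have h1 : 2 * j % 2 = 0 := by omega
    have h2 : 2 * j / 2 + 1 = j + 1 := by omega
    rw [dif_pos h1, h2]

theorem UV_odd (α β : R) (k : ℕ) :
    UV α β (2 * k + 1) = dadd α β (UV α β k) (UV α β (k + 1)) := by
  cases k with
  | zero =>
    simp only [Nat.mul_zero, Nat.zero_add, UV_zero, UV_one, dadd, wpoly]
    refine Prod.ext ?_ ?_
    · simp; ring
    · simp
  | succ j =>
    have h : 2 * (j + 1) + 1 = (2 * j + 1) + 2 := by ring
    rw [h, UV]
    have h1 : ¬ (2 * j + 1) % 2 = 0 := by omega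
    have h2 : (2 * j + 1) / 2 + 1 = j + 1 := by omega
    have h3 : (2 * j + 1) / 2 + 2 = j + 1 + 1 := by omega
    rw [dif_neg h1, h2, h3]

/-- The denominator at an odd index is the square of `wpoly`. -/
theorem UV_odd_snd (α β : R) (k : ℕ) :
    (UV α β (2 * k + 1)).2 = wpoly (UV α β k) (UV α β (k + 1)) ^ 2 := by
  rw [UV_odd]
  rfl

theorem eval_wpoly (x : R) (q q' : R[X] × R[X]) :
    (wpoly q q').eval x = q'.1.eval x * q.2.eval x - q.1.eval x * q'.2.eval x := by
  simp [wpoly]

theorem eval_dbl_fst (α β x : R) (q : R[X] × R[X]) :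
    (dbl α β q).1.eval x = (q.1.eval x ^ 2 - α * β * q.2.eval x ^ 2) ^ 2 := by
  simp [dbl]

theorem eval_dbl_snd (α β x : R) (q : R[X] × R[X]) :
    (dbl α β q).2.eval x =
      4 * q.1.eval x * q.2.eval x *
        (q.1.eval x ^ 2 - (α + β) * q.1.eval x * q.2.eval x + α * β * q.2.eval x ^ 2) := by
  simp [dbl]

theorem eval_dadd_fst (α β x : R) (q q' : R[X] × R[X]) :
    (dadd α β q q').1.eval x =
      2 * ((q'.1.eval x * q.2.eval x + q.1.eval x * q'.2.eval x) *
            (q'.1.eval x * q.1.eval x + α * β * q'.2.eval x * q.2.eval x)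
          - 2 * (α + β) * q'.1.eval x * q.1.eval x * q'.2.eval x * q.2.eval x)
        - x * (q'.1.eval x * q.2.eval x - q.1.eval x * q'.2.eval x) ^ 2 := by
  simp [dadd, wpoly]

theorem eval_dadd_snd (α β x : R) (q q' : R[X] × R[X]) :
    (dadd α β q q').2.eval x = (q'.1.eval x * q.2.eval x - q.1.eval x * q'.2.eval x) ^ 2 := by
  simp [dadd, wpoly]

/-- Degree data of the `n`-th ladder pair: `U` monic of degree `n²`, and (for `n ≥ 1`) `V` of
degree `n² - 1` with leading coefficient `n²`. -/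
def Deg (n : ℕ) (q : R[X] × R[X]) : Prop :=
  q.1.natDegree = n ^ 2 ∧ q.1.leadingCoeff = 1 ∧
    (1 ≤ n → q.2.natDegree = n ^ 2 - 1 ∧ q.2.leadingCoeff = (n : R) ^ 2)

end Ring

section Model

variable {K : Type*} [Field K] {α β : K} {G : Type*} [AddCommGroup G]

/-- `(u : w)` represents the abscissa of the point `R`: `w = 0 ∧ u ≠ 0` if `R = 0`, otherwise
`w ≠ 0` and `X(R) = u / w`. -/
def Spec (M : Model K α β G) (R : G) (u w : K) : Prop :=
  (R = 0 → w = 0 ∧ u ≠ 0) ∧ (R ≠ 0 → w ≠ 0 ∧ ∃ Y, M.coord R = some (u / w, Y))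

end Model

end Fermat.Agent.S13.LadderH
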