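import Mathlib
import Fermat.Agent.S13.LadderH.Defs

/-!
# S13 / LadderH / DegDadd (one worker; statement FROZEN by helper12)

Degrees under differential addition.  `q = (U, V)` with `Deg k q`, `q' = (U', V')` with
`Deg (k+1) q'`, `k ≥ 1` (so: `U, U'` monic of degrees `k²`, `(k+1)²`; `V, V'` of degrees `k² - 1`,
`(k+1)² - 1` with leading coefficients `k²`, `(k+1)²`, nonzero in characteristic zero).
`wpoly q q' = U' V - U V'`,
`dadd α β q q' = (2 ((U' V + U V') (U' U + C(αβ) V' V) - 2 C(α+β) U' U V' V) - X wpoly², wpoly²)`.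

Proof.  `U' V` and `U V'` both have degree `2k² + 2k`, with leading coefficients `k²`, `(k+1)²`;
so `wpoly` has degree `2k² + 2k` and leading coefficient `k² - (k+1)² = -(2k+1) ≠ 0`, and
`wpoly²` has degree `4k² + 4k = (2k+1)² - 1` and leading coefficient `(2k+1)²`.
`U' V + U V'`: degree `2k² + 2k`, leading coefficient `k² + (k+1)²`.  `U' U + C(αβ) V' V`: monic of
degree `2k² + 2k + 1`.  `2 C(α+β) U' U V' V` has degree `≤ 4k² + 4k`.  So
`2 (… ) ` has degree `4k² + 4k + 1` with leading coefficient `2 (k² + (k+1)²) = 4k² + 4k + 2`, and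
`X wpoly²` has degree `4k² + 4k + 1` with leading coefficient `(2k+1)² = 4k² + 4k + 1`; the
difference has coefficient `1` in degree `4k² + 4k + 1 = (2k+1)²` and nothing above.

Implementation: `degdadd_aux_Top p d c` says that `p` has degree at most `d` and coefficient `c`
in degree `d`; this predicate is compatible with products, sums and differences.
-/

set_option autoImplicit false

namespace Fermat.Agent.S13.LadderH

open Polynomial

section Aux

variable {K : Type*} [Field K]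

/-- `p` has degree at most `d` and its coefficient in degree `d` is `c`. -/
def degdadd_aux_Top (p : K[X]) (d : ℕ) (c : K) : Prop :=
  p.natDegree ≤ d ∧ p.coeff d = c

theorem degdadd_aux_mul {p p' : K[X]} {d d' : ℕ} {c c' : K}
    (h : degdadd_aux_Top p d c) (h' : degdadd_aux_Top p' d' c') :
    degdadd_aux_Top (p * p') (d + d') (c * c') :=
  ⟨natDegree_mul_le_of_le h.1 h'.1, by
    rw [coeff_mul_add_eq_of_natDegree_le h.1 h'.1, h.2, h'.2]⟩

theorem degdadd_aux_add {p p' : K[X]} {d : ℕ} {c c' : K}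
    (h : degdadd_aux_Top p d c) (h' : degdadd_aux_Top p' d c') :
    degdadd_aux_Top (p + p') d (c + c') :=
  ⟨natDegree_add_le_of_degree_le h.1 h'.1, by rw [coeff_add, h.2, h'.2]⟩

theorem degdadd_aux_sub {p p' : K[X]} {d : ℕ} {c c' : K}
    (h : degdadd_aux_Top p d c) (h' : degdadd_aux_Top p' d c') :
    degdadd_aux_Top (p - p') d (c - c') :=
  ⟨(natDegree_sub_le_of_le h.1 h'.1).trans (le_of_eq (max_self d)), by
    rw [coeff_sub, h.2, h'.2]⟩

theorem degdadd_aux_C (a : K) : degdadd_aux_Top (C a) 0 a :=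
  ⟨le_of_eq (natDegree_C a), coeff_C_zero⟩

theorem degdadd_aux_two : degdadd_aux_Top (2 : K[X]) 0 2 := by
  have h : (2 : K[X]) = C 2 := (map_ofNat C 2).symm
  rw [h]
  exact degdadd_aux_C 2

theorem degdadd_aux_X : degdadd_aux_Top (X : K[X]) 1 1 :=
  ⟨natDegree_X_le, coeff_X_one⟩

theorem degdadd_aux_of_lt {p : K[X]} {d d' : ℕ} {c : K}
    (h : degdadd_aux_Top p d c) (hd : d < d') : degdadd_aux_Top p d' 0 :=
  ⟨h.1.trans hd.le, coeff_eq_zero_of_natDegree_lt (lt_of_le_of_lt h.1 hd)⟩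

theorem degdadd_aux_congr {p : K[X]} {d d' : ℕ} {c c' : K}
    (h : degdadd_aux_Top p d c) (hd : d = d') (hc : c = c') : degdadd_aux_Top p d' c' := by
  subst hd
  subst hc
  exact h

theorem degdadd_aux_out {p : K[X]} {d : ℕ} {c : K}
    (h : degdadd_aux_Top p d c) (hc : c ≠ 0) : p.natDegree = d ∧ p.leadingCoeff = c := by
  have h1 : p.natDegree = d :=
    natDegree_eq_of_le_of_coeff_ne_zero h.1 (by rw [h.2]; exact hc)
  exact ⟨h1, by rw [leadingCoeff, h1, h.2]⟩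

theorem degdadd_aux_in {p : K[X]} {d : ℕ} {c : K}
    (h1 : p.natDegree = d) (h2 : p.leadingCoeff = c) : degdadd_aux_Top p d c :=
  ⟨le_of_eq h1, by rw [← h1, ← h2]; rfl⟩

end Aux

theorem deg_dadd {K : Type*} [Field K] [CharZero K] (α β : K) {k : ℕ} (hk : 1 ≤ k)
    {q q' : K[X] × K[X]} (h : Deg k q) (h' : Deg (k + 1) q') :
    Deg (2 * k + 1) (dadd α β q q') ∧
      (wpoly q q').natDegree = 2 * k ^ 2 + 2 * k ∧
      (wpoly q q').leadingCoeff = -((2 * k + 1 : ℕ) : K) := by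
  obtain ⟨hU1, hU2, hV⟩ := h
  obtain ⟨hV1, hV2⟩ := hV hk
  obtain ⟨hU1', hU2', hV'⟩ := h'
  obtain ⟨hV1', hV2'⟩ := hV' (Nat.le_add_left 1 k)
  -- arithmetic facts
  have e1 : (k + 1) ^ 2 = k ^ 2 + 2 * k + 1 := by ring
  have e2 : 1 ≤ k ^ 2 := Nat.one_le_pow _ _ hk
  have e3 : (2 * k + 1) ^ 2 = 4 * k ^ 2 + 4 * k + 1 := by ring
  -- the four input polynomials
  have TU : degdadd_aux_Top q.1 (k ^ 2) 1 := degdadd_aux_in hU1 hU2
  have TV : degdadd_aux_Top q.2 (k ^ 2 - 1) ((k : K) ^ 2) := degdadd_aux_in hV1 hV2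
  have TU' : degdadd_aux_Top q'.1 ((k + 1) ^ 2) 1 := degdadd_aux_in hU1' hU2'
  have TV' : degdadd_aux_Top q'.2 ((k + 1) ^ 2 - 1) (((k + 1 : ℕ) : K) ^ 2) :=
    degdadd_aux_in hV1' hV2'
  -- `U' V` and `U V'`
  have T1 : degdadd_aux_Top (q'.1 * q.2) (2 * k ^ 2 + 2 * k) ((k : K) ^ 2) :=
    degdadd_aux_congr (degdadd_aux_mul TU' TV) (by omega) (one_mul _)
  have T2 : degdadd_aux_Top (q.1 * q'.2) (2 * k ^ 2 + 2 * k) (((k + 1 : ℕ) : K) ^ 2) :=
    degdadd_aux_congr (degdadd_aux_mul TU TV') (by omega) (one_mul _)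
  -- `wpoly`
  have TW : degdadd_aux_Top (wpoly q q') (2 * k ^ 2 + 2 * k) (-((2 * k + 1 : ℕ) : K)) :=
    degdadd_aux_congr (degdadd_aux_sub T1 T2) rfl (by push_cast; ring)
  have hne : ((2 * k + 1 : ℕ) : K) ≠ 0 := Nat.cast_ne_zero.mpr (Nat.succ_ne_zero _)
  have hW := degdadd_aux_out TW (neg_ne_zero.mpr hne)
  -- `wpoly ^ 2`
  have TW2 : degdadd_aux_Top (wpoly q q' ^ 2) (4 * k ^ 2 + 4 * k)
      (((2 * k + 1 : ℕ) : K) ^ 2) := by
    rw [pow_two]
    exact degdadd_aux_congr (degdadd_aux_mul TW TW) (by ring) (by ring)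
  have hW2 := degdadd_aux_out TW2 (pow_ne_zero 2 hne)
  -- the numerator
  have TA : degdadd_aux_Top (q'.1 * q.2 + q.1 * q'.2) (2 * k ^ 2 + 2 * k)
      ((k : K) ^ 2 + ((k + 1 : ℕ) : K) ^ 2) := degdadd_aux_add T1 T2
  have TB1 : degdadd_aux_Top (q'.1 * q.1) (2 * k ^ 2 + 2 * k + 1) 1 :=
    degdadd_aux_congr (degdadd_aux_mul TU' TU) (by omega) (one_mul _)
  have TB2 : degdadd_aux_Top (C (α * β) * q'.2 * q.2) (2 * k ^ 2 + 2 * k + 1) 0 :=
    degdadd_aux_of_lt (degdadd_aux_mul (degdadd_aux_mul (degdadd_aux_C (α * β)) TV') TV)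
      (by omega)
  have TB : degdadd_aux_Top (q'.1 * q.1 + C (α * β) * q'.2 * q.2) (2 * k ^ 2 + 2 * k + 1) 1 :=
    degdadd_aux_congr (degdadd_aux_add TB1 TB2) rfl (add_zero _)
  have TAB : degdadd_aux_Top
      ((q'.1 * q.2 + q.1 * q'.2) * (q'.1 * q.1 + C (α * β) * q'.2 * q.2))
      (4 * k ^ 2 + 4 * k + 1) ((k : K) ^ 2 + ((k + 1 : ℕ) : K) ^ 2) :=
    degdadd_aux_congr (degdadd_aux_mul TA TB) (by ring) (mul_one _)
  have TD : degdadd_aux_Top (2 * C (α + β) * q'.1 * q.1 * q'.2 * q.2)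
      (4 * k ^ 2 + 4 * k + 1) 0 :=
    degdadd_aux_of_lt
      (degdadd_aux_mul (degdadd_aux_mul (degdadd_aux_mul (degdadd_aux_mul
        (degdadd_aux_mul degdadd_aux_two (degdadd_aux_C (α + β))) TU') TU) TV') TV)
      (by omega)
  have TE : degdadd_aux_Top
      ((q'.1 * q.2 + q.1 * q'.2) * (q'.1 * q.1 + C (α * β) * q'.2 * q.2)
        - 2 * C (α + β) * q'.1 * q.1 * q'.2 * q.2)
      (4 * k ^ 2 + 4 * k + 1) ((k : K) ^ 2 + ((k + 1 : ℕ) : K) ^ 2) :=
    degdadd_aux_congr (degdadd_aux_sub TAB TD) rfl (sub_zero _)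
  have TF : degdadd_aux_Top
      (2 * ((q'.1 * q.2 + q.1 * q'.2) * (q'.1 * q.1 + C (α * β) * q'.2 * q.2)
        - 2 * C (α + β) * q'.1 * q.1 * q'.2 * q.2))
      (4 * k ^ 2 + 4 * k + 1) (2 * ((k : K) ^ 2 + ((k + 1 : ℕ) : K) ^ 2)) :=
    degdadd_aux_congr (degdadd_aux_mul degdadd_aux_two TE) (zero_add _) rfl
  have TG : degdadd_aux_Top (X * wpoly q q' ^ 2) (4 * k ^ 2 + 4 * k + 1)
      (((2 * k + 1 : ℕ) : K) ^ 2) :=
    degdadd_aux_congr (degdadd_aux_mul degdadd_aux_X TW2) (by ring) (one_mul _)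
  have TH : degdadd_aux_Top (dadd α β q q').1 ((2 * k + 1) ^ 2) 1 :=
    degdadd_aux_congr (degdadd_aux_sub TF TG) e3.symm (by push_cast; ring)
  have hH := degdadd_aux_out TH one_ne_zero
  refine ⟨⟨hH.1, hH.2, fun _ => ⟨?_, ?_⟩⟩, hW.1, hW.2⟩
  · show (wpoly q q' ^ 2).natDegree = (2 * k + 1) ^ 2 - 1
    rw [hW2.1]
    omega
  · exact hW2.2

end Fermat.Agent.S13.LadderH
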