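import Mathlib
import Fermat.Agent.S13.LadderH.Defs

/-!
# S13 / LadderH / DegDbl (one worker; statement FROZEN by helper12)

Degrees under doubling.  `Deg m (U, V)` (for `m ≥ 1`) says: `U` is monic of `natDegree m²`, `V` has
`natDegree m² - 1` and leading coefficient `m²` (nonzero: characteristic zero).
`dbl α β (U, V) = ((U² - C(αβ) V²)², 4 U V (U² - C(α+β) U V + C(αβ) V²))`.

Proof.  `natDegree (U²) = 2m²` and `C(αβ) V²` has `natDegree ≤ 2m² - 2 < 2m²`, so
`U² - C(αβ) V²` is monic of degree `2m²` and its square is monic of degree `4m² = (2m)²`.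
`U² - C(α+β) U V + C(αβ) V²` is monic of degree `2m²` (the other two terms have degree
`≤ 2m² - 1`), so the second component has degree `m² + (m² - 1) + 2m² = (2m)² - 1` and leading
coefficient `4 · 1 · m² · 1 = (2m)²` (`4 = C 4`, `(4 : K) ≠ 0`).
Useful Mathlib: `Polynomial.natDegree_mul'`, `leadingCoeff_mul`, `natDegree_pow'`/`natDegree_pow`,
`leadingCoeff_pow`, `natDegree_sub_eq_left_of_natDegree_lt`, `leadingCoeff_sub_of_degree_lt`,
`natDegree_add_eq_left_of_natDegree_lt`, `leadingCoeff_add_of_degree_lt`, `natDegree_C_mul_le`,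
`Monic`, `Monic.natDegree_mul`, `Monic.pow`, `Polynomial.natDegree_mul_le`; or work with
`degree`; or compare coefficients (`coeff_mul_degree_add_degree`).
-/

set_option autoImplicit false

namespace Fermat.Agent.S13.LadderH

open Polynomial

/-- The core computation, with the pair `(U, V)` unbundled. -/
theorem degdbl_aux_core {K : Type*} [Field K] [CharZero K] (α β : K) {m : ℕ} (hm : 1 ≤ m)
    (U V : K[X]) (hUdeg : U.natDegree = m ^ 2) (hUlc : U.leadingCoeff = 1)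
    (hVdeg : V.natDegree = m ^ 2 - 1) (hVlc : V.leadingCoeff = (m : K) ^ 2) :
    ((U ^ 2 - C (α * β) * V ^ 2) ^ 2).natDegree = (2 * m) ^ 2 ∧
    ((U ^ 2 - C (α * β) * V ^ 2) ^ 2).leadingCoeff = 1 ∧
    (4 * U * V * (U ^ 2 - C (α + β) * U * V + C (α * β) * V ^ 2)).natDegree = (2 * m) ^ 2 - 1 ∧
    (4 * U * V * (U ^ 2 - C (α + β) * U * V + C (α * β) * V ^ 2)).leadingCoeff
      = ((2 * m : ℕ) : K) ^ 2 := by
  have hUmonic : U.Monic := hUlc
  have hm2 : 1 ≤ m ^ 2 := Nat.one_le_pow _ _ hm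
  have hmK : (m : K) ^ 2 ≠ 0 := pow_ne_zero _ (Nat.cast_ne_zero.mpr (by omega))
  have hV0 : V ≠ 0 := by
    intro h0
    rw [h0, leadingCoeff_zero] at hVlc
    exact hmK hVlc.symm
  have hU0 : U ≠ 0 := hUmonic.ne_zero
  -- `U ^ 2`
  have hU2monic : (U ^ 2).Monic := hUmonic.pow 2
  have hU2deg : (U ^ 2).natDegree = 2 * m ^ 2 := by
    rw [hUmonic.natDegree_pow, hUdeg]
  -- `C (α * β) * V ^ 2`
  have hV2deg : (C (α * β) * V ^ 2).natDegree ≤ 2 * m ^ 2 - 2 := by
    calc (C (α * β) * V ^ 2).natDegree ≤ (V ^ 2).natDegree := natDegree_C_mul_le _ _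
      _ ≤ 2 * V.natDegree := natDegree_pow_le
      _ = 2 * m ^ 2 - 2 := by rw [hVdeg]; omega
  -- `C (α + β) * U * V`
  have hUVdeg : (C (α + β) * U * V).natDegree ≤ 2 * m ^ 2 - 1 := by
    calc (C (α + β) * U * V).natDegree
        ≤ (C (α + β) * U).natDegree + V.natDegree := natDegree_mul_le
      _ ≤ U.natDegree + V.natDegree := Nat.add_le_add_right (natDegree_C_mul_le _ _) _
      _ = 2 * m ^ 2 - 1 := by rw [hUdeg, hVdeg]; omega
  -- `A = U ^ 2 - C (α * β) * V ^ 2`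
  have hAmonic : (U ^ 2 - C (α * β) * V ^ 2).Monic := by
    apply hU2monic.sub_of_left
    apply degree_lt_degree
    rw [hU2deg]; omega
  have hAdeg : (U ^ 2 - C (α * β) * V ^ 2).natDegree = 2 * m ^ 2 := by
    rw [natDegree_sub_eq_left_of_natDegree_lt (by rw [hU2deg]; omega), hU2deg]
  -- `B₀ = U ^ 2 - C (α + β) * U * V`
  have hB0monic : (U ^ 2 - C (α + β) * U * V).Monic := by
    apply hU2monic.sub_of_left
    apply degree_lt_degree
    rw [hU2deg]; omega
  have hB0deg : (U ^ 2 - C (α + β) * U * V).natDegree = 2 * m ^ 2 := by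
    rw [natDegree_sub_eq_left_of_natDegree_lt (by rw [hU2deg]; omega), hU2deg]
  -- `B = U ^ 2 - C (α + β) * U * V + C (α * β) * V ^ 2`
  have hBmonic : (U ^ 2 - C (α + β) * U * V + C (α * β) * V ^ 2).Monic := by
    apply hB0monic.add_of_left
    apply degree_lt_degree
    rw [hB0deg]; omega
  have hBdeg : (U ^ 2 - C (α + β) * U * V + C (α * β) * V ^ 2).natDegree = 2 * m ^ 2 := by
    rw [natDegree_add_eq_left_of_natDegree_lt (by rw [hB0deg]; omega), hB0deg]
  have hB0 : (U ^ 2 - C (α + β) * U * V + C (α * β) * V ^ 2) ≠ 0 := hBmonic.ne_zero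
  -- the constant `4`
  have h4K : (4 : K) ≠ 0 := by norm_num
  have h4C : (4 : K[X]) = C (4 : K) := (map_ofNat C 4).symm
  have h4ne : (4 : K[X]) ≠ 0 := by
    rw [h4C]
    exact C_ne_zero.mpr h4K
  have h4deg : (4 : K[X]).natDegree = 0 := by
    rw [h4C]
    exact natDegree_C _
  have h4lc : (4 : K[X]).leadingCoeff = 4 := by
    rw [h4C]
    exact leadingCoeff_C _
  refine ⟨?_, ?_, ?_, ?_⟩
  · rw [hAmonic.natDegree_pow, hAdeg]
    ring
  · exact (hAmonic.pow 2)
  · rw [natDegree_mul (mul_ne_zero (mul_ne_zero h4ne hU0) hV0) hB0,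
      natDegree_mul (mul_ne_zero h4ne hU0) hV0, natDegree_mul h4ne hU0, h4deg, hUdeg, hVdeg,
      hBdeg]
    have : (2 * m) ^ 2 = 4 * m ^ 2 := by ring
    omega
  · rw [leadingCoeff_mul, leadingCoeff_mul, leadingCoeff_mul, h4lc, hUlc, hVlc,
      hBmonic.leadingCoeff]
    push_cast
    ring

theorem deg_dbl {K : Type*} [Field K] [CharZero K] (α β : K) {m : ℕ} (hm : 1 ≤ m)
    {q : K[X] × K[X]} (h : Deg m q) : Deg (2 * m) (dbl α β q) := by
  obtain ⟨hUdeg, hUlc, hV⟩ := h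
  obtain ⟨hVdeg, hVlc⟩ := hV hm
  obtain ⟨h1, h2, h3, h4⟩ := degdbl_aux_core α β hm q.1 q.2 hUdeg hUlc hVdeg hVlc
  exact ⟨h1, h2, fun _ => ⟨h3, h4⟩⟩

end Fermat.Agent.S13.LadderH
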