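import Mathlib
import Fermat.Agent.S13.LadderH.Defs
import Fermat.Agent.S13.LadderH.DegDbl
import Fermat.Agent.S13.LadderH.DegDadd

/-!
# S13 / LadderH / Degree (helper12): degrees of the ladder polynomials, assembled from the leaves
`deg_dbl`, `deg_dadd`.
-/

set_option autoImplicit false

namespace Fermat.Agent.S13.LadderH

open Polynomial

variable {K : Type*} [Field K] [CharZero K]

theorem UV_deg (α β : K) (n : ℕ) : Deg n (UV α β n) := by
  induction n using Nat.strong_induction_on with
  | _ n ih =>
    rcases Nat.even_or_odd' n with ⟨k, rfl | rfl⟩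
    · rcases Nat.eq_zero_or_pos k with rfl | hk
      · rw [Nat.mul_zero, UV_zero]
        exact ⟨by simp, by simp, fun h => absurd h (by norm_num)⟩
      · rw [UV_even]
        exact deg_dbl α β hk (ih k (by omega))
    · rcases Nat.eq_zero_or_pos k with rfl | hk
      · rw [Nat.mul_zero, Nat.zero_add, UV_one]
        exact ⟨by simp, by simp, fun _ => ⟨by simp, by simp⟩⟩
      · rw [UV_odd]
        exact (deg_dadd α β hk (ih k (by omega)) (ih (k + 1) (by omega))).1

theorem wpoly_degree (α β : K) (k : ℕ) :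
    (wpoly (UV α β k) (UV α β (k + 1))).natDegree = 2 * k ^ 2 + 2 * k ∧
      (wpoly (UV α β k) (UV α β (k + 1))).leadingCoeff = -((2 * k + 1 : ℕ) : K) := by
  rcases Nat.eq_zero_or_pos k with rfl | hk
  · have h : wpoly (UV α β 0) (UV α β (0 + 1)) = -1 := by
      simp [UV_zero, UV_one, wpoly]
    rw [h]
    simp
  · exact (deg_dadd α β hk (UV_deg α β k) (UV_deg α β (k + 1))).2

theorem wpoly_ne_zero (α β : K) (k : ℕ) : wpoly (UV α β k) (UV α β (k + 1)) ≠ 0 := by
  intro h
  have h1 := (wpoly_degree α β k).2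
  rw [h, leadingCoeff_zero] at h1
  have h2 : ((2 * k + 1 : ℕ) : K) = 0 := by
    rw [eq_comm, neg_eq_zero] at h1
    exact h1
  exact absurd (Nat.cast_eq_zero.mp h2) (by omega)

end Fermat.Agent.S13.LadderH
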