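import Mathlib
import Fermat.Agent.S13.LadderH.Defs

/-!
# S13 / LadderH / Nondeg (one worker; statement FROZEN by helper12)

The axioms of `Fermat.Agent.S05.Model K α β G` force the cubic `X (X - α) (X - β)` to be
separable: `α ≠ 0`, `β ≠ 0`, `α ≠ β`.

Proof idea.  `T := (0, 0)`, `S_α := (α, 0)`, `S_β := (β, 0)` are points (`M.exists_of_equation`),
nonzero (`M.ne_zero_of_coord`).  The chord rule `M.coord_add` for two points with `Y = 0` and
distinct abscissas `X₁ ≠ X₂` gives `X(P + Q) = α + β - X₁ - X₂`, and a point with abscissa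
`ξ ∈ {0, α, β}` has `Y² = 0` (`M.equation`), so it is determined by `ξ` (`M.coord_injective`).
* `α = β ≠ 0`: `X(S_α + T) = β = α`, so `S_α + T = S_α`, `T = 0`: contradiction.
* `α = 0 ≠ β`: `X(S_β + T) = α = 0`, so `S_β + T = T`, `S_β = 0`: contradiction.
* `β = 0 ≠ α`: `X(S_α + T) = β = 0`, so `S_α + T = T`, `S_α = 0`: contradiction.
* `α = β = 0`: `P := (1, 1)` is a point of `Y² = X³`; `X(P + T) = 1 + 0 + 0 - 1 - 0 = 0`, so
  `P + T = T`, `P = 0`: contradiction.
-/

set_option autoImplicit false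

namespace Fermat.Agent.S13.LadderH

open Fermat.Agent.S05

/-- If `Q` has ordinate `0` and the chord rule says that `P + Q` has the same abscissa as `Q`
(where `P` has a different abscissa), we get a contradiction: `P + Q = ± Q = Q`, so `P = 0`. -/
theorem nondeg_aux_false {K : Type*} [Field K] {α β : K} {G : Type*} [AddCommGroup G]
    (M : Model K α β G) {P Q : G} {X₁ Y₁ X₂ : K} (hP : M.coord P = some (X₁, Y₁))
    (hQ : M.coord Q = some (X₂, 0)) (hne : X₁ ≠ X₂)
    (h : ((Y₁ - 0) / (X₁ - X₂)) ^ 2 + α + β - X₁ - X₂ = X₂) : False := by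
  obtain ⟨Y₃, h₃⟩ := M.coord_add hP hQ hne
  rw [h] at h₃
  have hQQ : Q + Q = 0 := M.add_self_eq_zero_of_Y_eq_zero hQ
  have hP0 : P = 0 := by
    rcases M.eq_or_eq_neg_of_X_eq hQ h₃ with h1 | h1
    · -- `P + Q = Q`
      exact add_eq_right.mp h1
    · -- `P + Q = -Q`
      have h2 : P + (Q + Q) = 0 := by
        rw [← add_assoc, h1, neg_add_cancel]
      rwa [hQQ, add_zero] at h2
  exact M.ne_zero_of_coord hP hP0

theorem model_nondeg {K : Type*} [Field K] {α β : K} {G : Type*} [AddCommGroup G]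
    (M : Model K α β G) : α ≠ 0 ∧ β ≠ 0 ∧ α ≠ β := by
  -- the three `2`-torsion points
  obtain ⟨T, hT⟩ := M.exists_of_equation 0 0 (by ring)
  obtain ⟨Sα, hSα⟩ := M.exists_of_equation α 0 (by ring)
  obtain ⟨Sβ, hSβ⟩ := M.exists_of_equation β 0 (by ring)
  have hα : α ≠ 0 := by
    intro hα0
    by_cases hβ0 : β = 0
    · -- `α = β = 0`: the point `(1, 1)` of `Y² = X³`
      obtain ⟨P, hP⟩ := M.exists_of_equation 1 1 (by rw [hα0, hβ0]; ring)
      refine nondeg_aux_false M hP hT one_ne_zero ?_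
      rw [hα0, hβ0]
      simp
    · -- `α = 0 ≠ β`
      refine nondeg_aux_false M hSβ hT hβ0 ?_
      rw [hα0]
      simp
  have hβ : β ≠ 0 := by
    intro hβ0
    refine nondeg_aux_false M hSα hT hα ?_
    rw [hβ0]
    simp
  refine ⟨hα, hβ, ?_⟩
  intro hαβ
  refine nondeg_aux_false M hT hSα (Ne.symm hα) ?_
  rw [← hαβ]
  simp

end Fermat.Agent.S13.LadderH
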