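import Mathlib
import Fermat.Agent.S13.LadderH.Defs

/-!
# S13 / LadderH / SpecDadd (one worker; statement FROZEN by helper12)

Pointwise correctness of the differential addition formula (pure field statement, no polynomials).
`Spec M R u w` means: `(R = 0 → w = 0 ∧ u ≠ 0) ∧ (R ≠ 0 → w ≠ 0 ∧ ∃ Y, M.coord R = some (u / w, Y))`.
Here `B ↔ (u : w)`, `A := B + Q ↔ (u' : w')`, `A - B = Q = (x, y) ≠ 0`, and the claim is about
`A + B = B + Q + B`.  Put `W := u' w - u w'`.

Proof (4 cases).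
* `B = 0` (`w = 0`, `u ≠ 0`; `A = Q`, so `w' ≠ 0`, `u' / w' = x` by `Option.some` injectivity):
  `W = -u w' ≠ 0`, `A + B = Q`, new `u` / new `w` `= x`.
* `A = 0` (`w' = 0`, `u' ≠ 0`; `B = -Q`, `M.coord_neg`, so `w ≠ 0`, `u / w = x`):
  `W = u' w ≠ 0`, `A + B = -Q`, with abscissa `x`, and new `u` / new `w` `= x`.
* `A, B ≠ 0` with the same abscissa `ξ = u / w = u' / w'`: `A = B ∨ A = -B`
  (`Model.eq_or_eq_neg_of_X_eq`); `A = B` is impossible (`Q ≠ 0`), so `A + B = 0`; `W = 0` so the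
  new `w` is `0`; new `u` `= 4 w² w'² ξ (ξ - α) (ξ - β) = 4 w² w'² Y(B)²`, and `Y(B) ≠ 0` since
  otherwise `B + B = 0` (`Model.add_self_eq_zero_of_Y_eq_zero`), `B = -B = A`.
* `A, B ≠ 0`, abscissas `ξ_A ≠ ξ_B`: `Model.exists_coord_add_sub hA hB hne` (file
  `Fermat/Agent/S05/Core/Formulas.lean`) gives the abscissas `Xp` of `A + B` and `Xm` of
  `A - B = Q` (so `Xm = x`) with
  `Xp + Xm = 2 ((ξ_A + ξ_B) (ξ_A ξ_B + αβ) - 2 (α + β) ξ_A ξ_B) / (ξ_A - ξ_B)²`; hence `A + B ≠ 0`,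
  new `w` `= (w w' (ξ_A - ξ_B))² ≠ 0`, and new `u` / new `w` `= Xp` (`field_simp`; `ring`).
-/

set_option autoImplicit false

namespace Fermat.Agent.S13.LadderH

open Fermat.Agent.S05

theorem spec_dadd {K : Type*} [Field K] {α β : K} {G : Type*} [AddCommGroup G]
    (M : Model K α β G) (hα : α ≠ 0) (hβ : β ≠ 0) (hαβ : α ≠ β) (h2 : (2 : K) ≠ 0)
    {Q B : G} {x y u w u' w' : K} (hQ : M.coord Q = some (x, y))
    (hB : Spec M B u w) (hA : Spec M (B + Q) u' w') :
    Spec M (B + Q + B)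
      (2 * ((u' * w + u * w') * (u' * u + α * β * w' * w) - 2 * (α + β) * u' * u * w' * w)
        - x * (u' * w - u * w') ^ 2)
      ((u' * w - u * w') ^ 2) := by
  -- the hypotheses `hα`, `hβ`, `hαβ` are not needed for this pointwise statement
  have _hunused := And.intro hα (And.intro hβ hαβ)
  have hQ0 : Q ≠ 0 := M.ne_zero_of_coord hQ
  by_cases hB0 : B = 0
  · -- `B = 0`, `A = Q`, `A + B = Q`
    obtain ⟨hw, hu⟩ := hB.1 hB0
    have hAQ : B + Q = Q := by rw [hB0, zero_add]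
    have hABQ : B + Q + B = Q := by rw [hB0, zero_add, add_zero]
    rw [hAQ] at hA
    obtain ⟨hw', Y', hY'⟩ := hA.2 hQ0
    rw [hQ] at hY'
    have hx : x = u' / w' := congrArg Prod.fst (Option.some.inj hY')
    have hu' : u' = x * w' := by rw [hx, div_mul_cancel₀ _ hw']
    rw [hABQ]
    have hW : (u' * w - u * w') ^ 2 ≠ 0 := by
      apply pow_ne_zero
      rw [hw, mul_zero, zero_sub]
      exact neg_ne_zero.mpr (mul_ne_zero hu hw')
    refine ⟨fun h => absurd h hQ0, fun _ => ⟨hW, y, ?_⟩⟩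
    have hval : (2 * ((u' * w + u * w') * (u' * u + α * β * w' * w)
        - 2 * (α + β) * u' * u * w' * w) - x * (u' * w - u * w') ^ 2) / (u' * w - u * w') ^ 2
        = x := by
      rw [div_eq_iff hW, hw, hu']
      ring
    rw [hval]
    exact hQ
  by_cases hA0 : B + Q = 0
  · -- `A = 0`, `B = -Q`, `A + B = B`
    obtain ⟨hw', hu'⟩ := hA.1 hA0
    have hBQ : B = -Q := eq_neg_of_add_eq_zero_left hA0
    obtain ⟨hw, Y, hY⟩ := hB.2 hB0
    have hY2 : M.coord (-Q) = some (u / w, Y) := by rw [← hBQ]; exact hY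
    rw [M.coord_neg hQ] at hY2
    have hx : x = u / w := congrArg Prod.fst (Option.some.inj hY2)
    have hu : u = x * w := by rw [hx, div_mul_cancel₀ _ hw]
    have hABQ : B + Q + B = B := by rw [hA0, zero_add]
    rw [hABQ]
    have hW : (u' * w - u * w') ^ 2 ≠ 0 := by
      apply pow_ne_zero
      rw [hw', mul_zero, sub_zero]
      exact mul_ne_zero hu' hw
    refine ⟨fun h => absurd h hB0, fun _ => ⟨hW, Y, ?_⟩⟩
    have hval : (2 * ((u' * w + u * w') * (u' * u + α * β * w' * w)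
        - 2 * (α + β) * u' * u * w' * w) - x * (u' * w - u * w') ^ 2) / (u' * w - u * w') ^ 2
        = u / w := by
      rw [div_eq_iff hW, ← hx, hw', hu]
      ring
    rw [hval]
    exact hY
  -- now `A ≠ 0`, `B ≠ 0`
  obtain ⟨hw, Yb, hYb⟩ := hB.2 hB0
  obtain ⟨hw', Ya, hYa⟩ := hA.2 hA0
  obtain ⟨ξB, rfl⟩ : ∃ ξB, u = ξB * w := ⟨u / w, (div_mul_cancel₀ u hw).symm⟩
  obtain ⟨ξA, rfl⟩ : ∃ ξA, u' = ξA * w' := ⟨u' / w', (div_mul_cancel₀ u' hw').symm⟩
  rw [mul_div_cancel_right₀ _ hw] at hYb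
  rw [mul_div_cancel_right₀ _ hw'] at hYa
  have hWeq : ξA * w' * w - ξB * w * w' = w * w' * (ξA - ξB) := by ring
  by_cases hξ : ξA = ξB
  · -- same abscissa: `A = -B`, `A + B = 0`
    subst hξ
    rcases M.eq_or_eq_neg_of_X_eq hYb hYa with h | h
    · exact absurd (add_eq_left.mp h) hQ0
    · have hAB : B + Q + B = 0 := by rw [h, neg_add_cancel]
      have hYb0 : Yb ≠ 0 := by
        rintro rfl
        have h1 : B + B = 0 := M.add_self_eq_zero_of_Y_eq_zero hYb
        have h3 : B + Q = B := by rw [h]; exact neg_eq_of_add_eq_zero_left h1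
        exact hQ0 (add_eq_left.mp h3)
      have heq := M.equation hYb
      refine ⟨fun _ => ⟨?_, ?_⟩, fun h => absurd hAB h⟩
      · rw [hWeq, sub_self, mul_zero]
        exact zero_pow two_ne_zero
      · have hnewU : 2 * ((ξA * w' * w + ξA * w * w') * (ξA * w' * (ξA * w) + α * β * w' * w)
            - 2 * (α + β) * (ξA * w') * (ξA * w) * w' * w)
            - x * (ξA * w' * w - ξA * w * w') ^ 2 = 2 ^ 2 * w ^ 2 * w' ^ 2 * Yb ^ 2 := by
          rw [heq]
          ring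
        rw [hnewU]
        exact mul_ne_zero (mul_ne_zero (mul_ne_zero (pow_ne_zero 2 h2) (pow_ne_zero 2 hw))
          (pow_ne_zero 2 hw')) (pow_ne_zero 2 hYb0)
  · -- generic case: chord rule
    obtain ⟨Xp, Yp, Xm, Ym, hp, hm, hsum, -⟩ := M.exists_coord_add_sub hYa hYb hξ
    have hABQ : B + Q - B = Q := by abel
    rw [hABQ, hQ] at hm
    have hXm : x = Xm := congrArg Prod.fst (Option.some.inj hm)
    have hAB0 : B + Q + B ≠ 0 := M.ne_zero_of_coord hp
    have hd : ξA - ξB ≠ 0 := sub_ne_zero.mpr hξ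
    have hW : (ξA * w' * w - ξB * w * w') ^ 2 ≠ 0 := by
      rw [hWeq]
      exact pow_ne_zero 2 (mul_ne_zero (mul_ne_zero hw hw') hd)
    refine ⟨fun h => absurd h hAB0, fun _ => ⟨hW, Yp, ?_⟩⟩
    rw [eq_div_iff (pow_ne_zero 2 hd), ← hXm] at hsum
    have hval : (2 * ((ξA * w' * w + ξB * w * w') * (ξA * w' * (ξB * w) + α * β * w' * w)
        - 2 * (α + β) * (ξA * w') * (ξB * w) * w' * w)
        - x * (ξA * w' * w - ξB * w * w') ^ 2) / (ξA * w' * w - ξB * w * w') ^ 2 = Xp := by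
      rw [div_eq_iff hW]
      linear_combination (-(w ^ 2 * w' ^ 2)) * hsum
    rw [hval]
    exact hp

end Fermat.Agent.S13.LadderH
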