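import Mathlib
import Fermat.Agent.S13.LadderH.Defs

/-!
# S13 / LadderH / SpecDbl (one worker; statement FROZEN by helper12)

Pointwise correctness of the doubling formula (pure field statement, no polynomials).
`Spec M R u w` means: `(R = 0 → w = 0 ∧ u ≠ 0) ∧ (R ≠ 0 → w ≠ 0 ∧ ∃ Y, M.coord R = some (u / w, Y))`.

Proof.  * `R = 0`: `w = 0`, `u ≠ 0`; `R + R = 0`, new `w` is `0`, new `u` is `u⁴ ≠ 0`.
* `R ≠ 0`: `w ≠ 0`, `M.coord R = some (ξ, η)` with `ξ = u / w` and `η² = ξ (ξ - α) (ξ - β)`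
  (`M.equation`).  New `w` `= 4 w⁴ ξ (ξ - α) (ξ - β) = 4 w⁴ η²`, new `u` `= w⁴ (ξ² - αβ)²`.
  - `η = 0`: `R + R = 0` (`Model.add_self_eq_zero_of_Y_eq_zero`), new `w = 0`, and
    `ξ ∈ {0, α, β}` gives `ξ² - αβ ∈ {-αβ, α (α - β), β (β - α)}`, nonzero, so new `u ≠ 0`.
  - `η ≠ 0`: `Model.exists_coord_two h2 hR hη : ∃ Y₃, M.coord (R + R) = some ((ξ²-αβ)²/(4η²), Y₃)`
    (file `Fermat/Agent/S05/Core/Formulas.lean`), so `R + R ≠ 0` (`Model.ne_zero_of_coord`),
    new `w ≠ 0` and new `u` / new `w` `= (ξ² - αβ)² / (4 η²)` (`field_simp`; `ring`).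
-/

set_option autoImplicit false

namespace Fermat.Agent.S13.LadderH

open Fermat.Agent.S05

theorem spec_dbl {K : Type*} [Field K] {α β : K} {G : Type*} [AddCommGroup G]
    (M : Model K α β G) (hα : α ≠ 0) (hβ : β ≠ 0) (hαβ : α ≠ β) (h2 : (2 : K) ≠ 0)
    {R : G} {u w : K} (h : Spec M R u w) :
    Spec M (R + R) ((u ^ 2 - α * β * w ^ 2) ^ 2)
      (4 * u * w * (u ^ 2 - (α + β) * u * w + α * β * w ^ 2)) := by
  unfold Spec at h ⊢
  obtain ⟨h0, h1⟩ := h
  by_cases hR : R = 0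
  · -- `R = 0`: `w = 0`, `u ≠ 0`
    obtain ⟨hw, hu⟩ := h0 hR
    have hRR : R + R = 0 := by rw [hR, add_zero]
    refine ⟨fun _ => ⟨?_, ?_⟩, fun hne => absurd hRR hne⟩
    · rw [hw]
      ring
    · rw [hw]
      have hpow : (u ^ 2 - α * β * 0 ^ 2) ^ 2 = u ^ 4 := by ring
      rw [hpow]
      exact pow_ne_zero 4 hu
  · -- `R ≠ 0`: `w ≠ 0`, `X(R) = u / w =: ξ`
    obtain ⟨hw, Y, hY⟩ := h1 hR
    have hu : u = u / w * w := (div_mul_cancel₀ u hw).symm
    generalize u / w = ξ at hY hu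
    subst hu
    have heq : Y ^ 2 = ξ * (ξ - α) * (ξ - β) := M.equation hY
    have hU : ((ξ * w) ^ 2 - α * β * w ^ 2) ^ 2 = w ^ 4 * (ξ ^ 2 - α * β) ^ 2 := by ring
    have hW : 4 * (ξ * w) * w * ((ξ * w) ^ 2 - (α + β) * (ξ * w) * w + α * β * w ^ 2)
        = w ^ 4 * (4 * Y ^ 2) := by
      rw [heq]
      ring
    rw [hU, hW]
    have hw4 : w ^ 4 ≠ 0 := pow_ne_zero 4 hw
    have h4 : (4 : K) ≠ 0 := by
      have h22 : (4 : K) = 2 * 2 := by norm_num
      rw [h22]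
      exact mul_ne_zero h2 h2
    by_cases hη : Y = 0
    · -- `Y(R) = 0`: `R + R = 0`
      subst hη
      have hRR : R + R = 0 := M.add_self_eq_zero_of_Y_eq_zero hY
      refine ⟨fun _ => ⟨by ring, ?_⟩, fun hne => absurd hRR hne⟩
      have hξ : ξ ^ 2 - α * β ≠ 0 := by
        have h3 : ξ * (ξ - α) * (ξ - β) = 0 := by
          rw [← heq]
          ring
        rcases mul_eq_zero.1 h3 with h3 | h3
        · rcases mul_eq_zero.1 h3 with h3 | h3
          · rw [h3]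
            have h5 : (0 : K) ^ 2 - α * β = -(α * β) := by ring
            rw [h5]
            exact neg_ne_zero.2 (mul_ne_zero hα hβ)
          · have hξα : ξ = α := sub_eq_zero.1 h3
            rw [hξα]
            have h5 : α ^ 2 - α * β = α * (α - β) := by ring
            rw [h5]
            exact mul_ne_zero hα (sub_ne_zero.2 hαβ)
        · have hξβ : ξ = β := sub_eq_zero.1 h3
          rw [hξβ]
          have h5 : β ^ 2 - α * β = β * (β - α) := by ring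
          rw [h5]
          exact mul_ne_zero hβ (sub_ne_zero.2 hαβ.symm)
      exact mul_ne_zero hw4 (pow_ne_zero 2 hξ)
    · -- `Y(R) ≠ 0`: duplication formula
      obtain ⟨Y₃, hY₃⟩ := M.exists_coord_two h2 hY hη
      have hRR : R + R ≠ 0 := M.ne_zero_of_coord hY₃
      have hW0 : w ^ 4 * (4 * Y ^ 2) ≠ 0 :=
        mul_ne_zero hw4 (mul_ne_zero h4 (pow_ne_zero 2 hη))
      refine ⟨fun h => absurd h hRR, fun _ => ⟨hW0, Y₃, ?_⟩⟩
      rw [mul_div_mul_left _ _ hw4]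
      exact hY₃

end Fermat.Agent.S13.LadderH
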