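import Mathlib
import Fermat.Agent.S13.LadderH.Defs
import Fermat.Agent.S13.LadderH.Nondeg
import Fermat.Agent.S13.LadderH.SpecDbl
import Fermat.Agent.S13.LadderH.SpecDadd

/-!
# S13 / LadderH / SpecUV (helper12): correctness of the ladder polynomials, assembled from the
leaves `model_nondeg`, `spec_dbl`, `spec_dadd`.

`spec_UV`: for a point `Q = (x, y)` of a model, `(U n (x) : V n (x))` represents `n • Q`.
-/

set_option autoImplicit false

namespace Fermat.Agent.S13.LadderH

open Polynomial Fermat.Agent.S05

variable {K : Type*} [Field K] {α β : K} {G : Type*} [AddCommGroup G]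

theorem spec_UV (M : Model K α β G) (h2 : (2 : K) ≠ 0) {Q : G} {x y : K}
    (hQ : M.coord Q = some (x, y)) (n : ℕ) :
    Spec M (n • Q) ((UV α β n).1.eval x) ((UV α β n).2.eval x) := by
  obtain ⟨hα, hβ, hαβ⟩ := model_nondeg M
  induction n using Nat.strong_induction_on with
  | _ n ih =>
    rcases Nat.even_or_odd' n with ⟨k, rfl | rfl⟩
    · rcases Nat.eq_zero_or_pos k with rfl | hk
      · simp only [Nat.mul_zero, zero_smul, UV_zero, eval_one, eval_zero]
        exact ⟨fun _ => ⟨rfl, one_ne_zero⟩, fun h => absurd rfl h⟩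
      · have h := spec_dbl M hα hβ hαβ h2 (ih k (by omega))
        rw [UV_even, eval_dbl_fst, eval_dbl_snd]
        have e : (2 * k) • Q = k • Q + k • Q := by rw [two_mul, add_smul]
        rw [e]
        exact h
    · rcases Nat.eq_zero_or_pos k with rfl | hk
      · simp only [Nat.mul_zero, Nat.zero_add, one_smul, UV_one, eval_X, eval_one]
        refine ⟨fun h => absurd h (M.ne_zero_of_coord hQ), fun _ => ⟨one_ne_zero, y, ?_⟩⟩
        rw [div_one]
        exact hQ
      · have hB := ih k (by omega)
        have hA := ih (k + 1) (by omega)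
        rw [succ_nsmul] at hA
        have h := spec_dadd M hα hβ hαβ h2 hQ hB hA
        rw [UV_odd, eval_dadd_fst, eval_dadd_snd]
        have e : (2 * k + 1) • Q = k • Q + Q + k • Q := by
          rw [add_smul, two_mul, add_smul, one_smul]
          abel
        rw [e]
        exact h

/-- The denominator `V n` vanishes at the abscissa of `Q` exactly when `n • Q = 0`. -/
theorem eval_V_eq_zero_iff (M : Model K α β G) (h2 : (2 : K) ≠ 0) {Q : G} {x y : K}
    (hQ : M.coord Q = some (x, y)) (n : ℕ) :
    (UV α β n).2.eval x = 0 ↔ n • Q = 0 := by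
  have h := spec_UV M h2 hQ n
  constructor
  · intro h0
    by_contra hne
    exact (h.2 hne).1 h0
  · intro h0
    exact (h.1 h0).1

/-- The abscissa of a nonzero `(2k+1)`-torsion point is a root of `wpoly (UV k) (UV (k+1))`. -/
theorem eval_wpoly_eq_zero_of_torsion (M : Model K α β G) (h2 : (2 : K) ≠ 0) {Q : G} {x y : K}
    (hQ : M.coord Q = some (x, y)) {k : ℕ} (h : (2 * k + 1) • Q = 0) :
    (wpoly (UV α β k) (UV α β (k + 1))).eval x = 0 := by
  have h0 := (eval_V_eq_zero_iff M h2 hQ (2 * k + 1)).mpr h
  rw [UV_odd_snd, eval_pow] at h0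
  exact pow_eq_zero_iff (two_ne_zero) |>.mp h0

end Fermat.Agent.S13.LadderH
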