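import Mathlib
import Fermat.Agent.S13.LadderH.SpecUV
import Fermat.Agent.S13.LadderH.Degree

/-!
# S13 / LadderH / Count (helper12): at most `p²` points of order dividing `p` (characteristic
zero), from `eval_wpoly_eq_zero_of_torsion` and `wpoly_degree`.
(Counting argument adapted from helper10's `PCore/Count.lean`.)
-/

set_option autoImplicit false

namespace Fermat.Agent.S13.LadderH

open Fermat.Agent.S05 Polynomial

theorem torsion_finite_odd {K : Type*} [Field K] [CharZero K] {α β : K} {G : Type*}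
    [AddCommGroup G] (M : Model K α β G) (k : ℕ) :
    {Q : G | (2 * k + 1) • Q = 0}.Finite ∧ {Q : G | (2 * k + 1) • Q = 0}.ncard ≤ (2 * k + 1) ^ 2 := by
  classical
  have h2 : (2 : K) ≠ 0 := two_ne_zero
  set f : K[X] := wpoly (UV α β k) (UV α β (k + 1)) with hf
  have hf0 : f ≠ 0 := wpoly_ne_zero α β k
  have hdeg : f.natDegree = 2 * k ^ 2 + 2 * k := (wpoly_degree α β k).1
  have hRcard : f.roots.toFinset.card ≤ 2 * k ^ 2 + 2 * k :=
    calc f.roots.toFinset.card ≤ Multiset.card f.roots := Multiset.toFinset_card_le _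
      _ ≤ f.natDegree := Polynomial.card_roots' _
      _ = 2 * k ^ 2 + 2 * k := hdeg
  let g : K → Finset G := fun x =>
    if h : ∃ Q : G, ∃ Y : K, M.coord Q = some (x, Y) then {h.choose, -h.choose} else ∅
  have hg : ∀ x, (g x).card ≤ 2 := by
    intro x
    by_cases h : ∃ Q : G, ∃ Y : K, M.coord Q = some (x, Y)
    · have : g x = {h.choose, -h.choose} := dif_pos h
      rw [this]
      exact Finset.card_le_two
    · have : g x = ∅ := dif_neg h
      rw [this]
      simp
  have hsub : {Q : G | (2 * k + 1) • Q = 0} ⊆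
      ((insert 0 (f.roots.toFinset.biUnion g) : Finset G) : Set G) := by
    intro Q hQ
    have hpQ : (2 * k + 1) • Q = 0 := hQ
    rw [Finset.mem_coe, Finset.mem_insert]
    by_cases hQ0 : Q = 0
    · exact Or.inl hQ0
    · right
      obtain ⟨X, Y, hXY⟩ := M.exists_coord_of_ne_zero hQ0
      have hroot : f.eval X = 0 := eval_wpoly_eq_zero_of_torsion M h2 hXY hpQ
      have hXR : X ∈ f.roots.toFinset := by
        rw [Multiset.mem_toFinset, Polynomial.mem_roots hf0]
        exact hroot
      have hex : ∃ Q : G, ∃ Y : K, M.coord Q = some (X, Y) := ⟨Q, Y, hXY⟩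
      have hgX : g X = {hex.choose, -hex.choose} := dif_pos hex
      have hQg : Q ∈ g X := by
        rw [hgX, Finset.mem_insert, Finset.mem_singleton]
        obtain ⟨Y₀, hY₀⟩ := hex.choose_spec
        exact M.eq_or_eq_neg_of_X_eq hY₀ hXY
      exact Finset.mem_biUnion.2 ⟨X, hXR, hQg⟩
  have hTcard : (insert 0 (f.roots.toFinset.biUnion g) : Finset G).card ≤ (2 * k + 1) ^ 2 := by
    have h1 := Finset.card_insert_le (0 : G) (f.roots.toFinset.biUnion g)
    have h3 : (f.roots.toFinset.biUnion g).card ≤ f.roots.toFinset.card * 2 :=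
      Finset.card_biUnion_le_card_mul _ _ _ (fun x _ => hg x)
    have h6 : f.roots.toFinset.card * 2 ≤ (2 * k ^ 2 + 2 * k) * 2 :=
      Nat.mul_le_mul_right 2 hRcard
    have h7 : (2 * k + 1) ^ 2 = (2 * k ^ 2 + 2 * k) * 2 + 1 := by ring
    omega
  refine ⟨(Finset.finite_toSet _).subset hsub, ?_⟩
  calc {Q : G | (2 * k + 1) • Q = 0}.ncard
      ≤ ((insert 0 (f.roots.toFinset.biUnion g) : Finset G) : Set G).ncard :=
        Set.ncard_le_ncard hsub (Finset.finite_toSet _)
    _ = (insert 0 (f.roots.toFinset.biUnion g) : Finset G).card := Set.ncard_coe_finset _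
    _ ≤ (2 * k + 1) ^ 2 := hTcard

theorem torsion_finite_cz' {K : Type*} [Field K] [CharZero K] {α β : K} {G : Type*}
    [AddCommGroup G] (M : Model K α β G) {p : ℕ} (hp : p.Prime) (hp5 : 5 ≤ p) :
    {Q : G | p • Q = 0}.Finite ∧ {Q : G | p • Q = 0}.ncard ≤ p ^ 2 := by
  have hodd : Odd p := hp.odd_of_ne_two (by omega)
  obtain ⟨k, rfl⟩ := hodd
  exact torsion_finite_odd M k

end Fermat.Agent.S13.LadderH
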