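import Mathlib
import Fermat.Agent.S13.LadderH.SpecUV
import Fermat.Agent.S13.LadderH.Degree

/-!
# S13 / LadderH / Exists (helper12): a nonzero `p`-torsion point exists over an algebraically
closed field of characteristic zero: `V p` is not constant (degree `p² - 1`), take a root `x₁`,
a square root `y₁` of `x₁ (x₁ - α) (x₁ - β)`, and the point `(x₁, y₁)`.
-/

set_option autoImplicit false

namespace Fermat.Agent.S13.LadderH

open Fermat.Agent.S05 Polynomial

theorem exists_torsion_cz' {K : Type*} [Field K] [CharZero K] [IsAlgClosed K] {α β : K}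
    {G : Type*} [AddCommGroup G] (M : Model K α β G) {p : ℕ} (hp : p.Prime) (hp5 : 5 ≤ p) :
    ∃ Q : G, Q ≠ 0 ∧ p • Q = 0 := by
  have h2 : (2 : K) ≠ 0 := two_ne_zero
  have hdeg := (UV_deg α β p).2.2 (by omega)
  have hnd : (UV α β p).2.natDegree ≠ 0 := by
    rw [hdeg.1]
    have : 25 ≤ p ^ 2 := by nlinarith
    omega
  have hd : (UV α β p).2.degree ≠ 0 := by
    intro h
    exact hnd (natDegree_eq_of_degree_eq_some h)
  obtain ⟨x₁, hx₁⟩ := IsAlgClosed.exists_root (UV α β p).2 hd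
  obtain ⟨y₁, hy₁⟩ := IsAlgClosed.exists_pow_nat_eq (x₁ * (x₁ - α) * (x₁ - β)) (n := 2) (by norm_num)
  obtain ⟨Q, hQ⟩ := M.exists_of_equation x₁ y₁ hy₁
  exact ⟨Q, M.ne_zero_of_coord hQ, (eval_V_eq_zero_iff M h2 hQ p).mp hx₁⟩

end Fermat.Agent.S13.LadderH
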