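import Mathlib
import Fermat.Agent.S13.LadderH.Defs

/-!
# S13 / LadderH / Integral (one worker; statement FROZEN by helper12)

If `v α ≤ 1` and `v β ≤ 1` then all coefficients of the ladder polynomials `U n`, `V n`, and of
`wpoly (UV k) (UV (k+1)) = U (k+1) V k - U k V (k+1)`, have valuation `≤ 1`.

Proof idea.  The polynomials with all coefficients of valuation `≤ 1` form a subring of `K[X]`
(e.g. the range of `Polynomial.mapRingHom v.integer.subtype`: `Polynomial.lifts`,
`Polynomial.lifts_iff_coeff_lifts`, `Polynomial.liftsRing`; or prove closure under `+`, `-`, `*`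
directly from `Polynomial.coeff_mul` and the ultrametric inequality `Valuation.map_sum_le`),
containing `X`, `1`, `C α`, `C β`, the numerals (`v (n : K) ≤ 1` for `n : ℕ` by induction) — hence
closed under `dbl α β` and `dadd α β` componentwise; conclude by strong induction on `n` with
`UV_zero`, `UV_one`, `UV_even`, `UV_odd` (use ONLY these four lemmas, never unfold `UV`).
-/

set_option autoImplicit false

namespace Fermat.Agent.S13.LadderH

open Polynomial

/-- The subring of `K[X]` of polynomials all of whose coefficients have valuation `≤ 1`. -/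
def integral_aux_subring {K : Type*} [Field K] {Γ₀ : Type*} [LinearOrderedCommGroupWithZero Γ₀]
    (v : Valuation K Γ₀) : Subring K[X] where
  carrier := {p | ∀ i, v (p.coeff i) ≤ 1}
  mul_mem' := by
    intro p q hp hq i
    rw [Polynomial.coeff_mul]
    refine Valuation.map_sum_le v (fun x _ => ?_)
    rw [map_mul]
    exact mul_le_one' (hp x.1) (hq x.2)
  one_mem' := by
    intro i
    rw [Polynomial.coeff_one]
    split_ifs <;> simp
  add_mem' := by
    intro p q hp hq i
    rw [Polynomial.coeff_add]
    exact Valuation.map_add_le v (hp i) (hq i)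
  zero_mem' := by
    intro i
    simp
  neg_mem' := by
    intro p hp i
    rw [Polynomial.coeff_neg, Valuation.map_neg]
    exact hp i

theorem integral_aux_mem_iff {K : Type*} [Field K] {Γ₀ : Type*}
    [LinearOrderedCommGroupWithZero Γ₀] (v : Valuation K Γ₀) (p : K[X]) :
    p ∈ integral_aux_subring v ↔ ∀ i, v (p.coeff i) ≤ 1 :=
  Iff.rfl

theorem integral_aux_C_mem {K : Type*} [Field K] {Γ₀ : Type*}
    [LinearOrderedCommGroupWithZero Γ₀] (v : Valuation K Γ₀) {a : K} (ha : v a ≤ 1) :
    C a ∈ integral_aux_subring v := by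
  intro i
  rw [Polynomial.coeff_C]
  split_ifs
  · exact ha
  · simp

theorem integral_aux_X_mem {K : Type*} [Field K] {Γ₀ : Type*}
    [LinearOrderedCommGroupWithZero Γ₀] (v : Valuation K Γ₀) :
    (X : K[X]) ∈ integral_aux_subring v := by
  intro i
  rw [Polynomial.coeff_X]
  split_ifs <;> simp

theorem integral_aux_wpoly_mem {K : Type*} [Field K] {Γ₀ : Type*}
    [LinearOrderedCommGroupWithZero Γ₀] (v : Valuation K Γ₀) {q q' : K[X] × K[X]}
    (h1 : q.1 ∈ integral_aux_subring v) (h2 : q.2 ∈ integral_aux_subring v)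
    (h1' : q'.1 ∈ integral_aux_subring v) (h2' : q'.2 ∈ integral_aux_subring v) :
    wpoly q q' ∈ integral_aux_subring v :=
  Subring.sub_mem _ (Subring.mul_mem _ h1' h2) (Subring.mul_mem _ h1 h2')

theorem integral_aux_dbl_mem {K : Type*} [Field K] {Γ₀ : Type*}
    [LinearOrderedCommGroupWithZero Γ₀] (v : Valuation K Γ₀) {α β : K} (hα : v α ≤ 1)
    (hβ : v β ≤ 1) {q : K[X] × K[X]}
    (h1 : q.1 ∈ integral_aux_subring v) (h2 : q.2 ∈ integral_aux_subring v) :
    (dbl α β q).1 ∈ integral_aux_subring v ∧ (dbl α β q).2 ∈ integral_aux_subring v := by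
  have hm : C (α * β) ∈ integral_aux_subring v :=
    integral_aux_C_mem v (by rw [map_mul]; exact mul_le_one' hα hβ)
  have ha : C (α + β) ∈ integral_aux_subring v :=
    integral_aux_C_mem v (Valuation.map_add_le v hα hβ)
  have h4 : (4 : K[X]) ∈ integral_aux_subring v := ofNat_mem _ 4
  constructor
  · exact Subring.pow_mem _
      (Subring.sub_mem _ (Subring.pow_mem _ h1 2) (Subring.mul_mem _ hm (Subring.pow_mem _ h2 2))) 2
  · exact Subring.mul_mem _ (Subring.mul_mem _ (Subring.mul_mem _ h4 h1) h2)
      (Subring.add_mem _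
        (Subring.sub_mem _ (Subring.pow_mem _ h1 2)
          (Subring.mul_mem _ (Subring.mul_mem _ ha h1) h2))
        (Subring.mul_mem _ hm (Subring.pow_mem _ h2 2)))

theorem integral_aux_dadd_mem {K : Type*} [Field K] {Γ₀ : Type*}
    [LinearOrderedCommGroupWithZero Γ₀] (v : Valuation K Γ₀) {α β : K} (hα : v α ≤ 1)
    (hβ : v β ≤ 1) {q q' : K[X] × K[X]}
    (h1 : q.1 ∈ integral_aux_subring v) (h2 : q.2 ∈ integral_aux_subring v)
    (h1' : q'.1 ∈ integral_aux_subring v) (h2' : q'.2 ∈ integral_aux_subring v) :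
    (dadd α β q q').1 ∈ integral_aux_subring v ∧ (dadd α β q q').2 ∈ integral_aux_subring v := by
  have hm : C (α * β) ∈ integral_aux_subring v :=
    integral_aux_C_mem v (by rw [map_mul]; exact mul_le_one' hα hβ)
  have ha : C (α + β) ∈ integral_aux_subring v :=
    integral_aux_C_mem v (Valuation.map_add_le v hα hβ)
  have h2two : (2 : K[X]) ∈ integral_aux_subring v := ofNat_mem _ 2
  have hw : wpoly q q' ∈ integral_aux_subring v := integral_aux_wpoly_mem v h1 h2 h1' h2'
  have hX : (X : K[X]) ∈ integral_aux_subring v := integral_aux_X_mem v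
  constructor
  · exact Subring.sub_mem _
      (Subring.mul_mem _ h2two
        (Subring.sub_mem _
          (Subring.mul_mem _
            (Subring.add_mem _ (Subring.mul_mem _ h1' h2) (Subring.mul_mem _ h1 h2'))
            (Subring.add_mem _ (Subring.mul_mem _ h1' h1)
              (Subring.mul_mem _ (Subring.mul_mem _ hm h2') h2)))
          (Subring.mul_mem _
            (Subring.mul_mem _
              (Subring.mul_mem _ (Subring.mul_mem _ (Subring.mul_mem _ h2two ha) h1') h1) h2')
            h2)))
      (Subring.mul_mem _ hX (Subring.pow_mem _ hw 2))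
  · exact Subring.pow_mem _ hw 2

theorem integral_aux_UV_mem {K : Type*} [Field K] {Γ₀ : Type*}
    [LinearOrderedCommGroupWithZero Γ₀] (v : Valuation K Γ₀) {α β : K} (hα : v α ≤ 1)
    (hβ : v β ≤ 1) (n : ℕ) :
    (UV α β n).1 ∈ integral_aux_subring v ∧ (UV α β n).2 ∈ integral_aux_subring v := by
  induction n using Nat.strong_induction_on with
  | _ n ih =>
    obtain ⟨k, hk | hk⟩ := Nat.even_or_odd' n
    · rcases Nat.eq_zero_or_pos k with hk0 | hk0
      · subst hk0
        subst hk
        rw [Nat.mul_zero, UV_zero]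
        exact ⟨Subring.one_mem _, Subring.zero_mem _⟩
      · subst hk
        rw [UV_even]
        have := ih k (by omega)
        exact integral_aux_dbl_mem v hα hβ this.1 this.2
    · rcases Nat.eq_zero_or_pos k with hk0 | hk0
      · subst hk0
        subst hk
        rw [Nat.mul_zero, Nat.zero_add, UV_one]
        exact ⟨integral_aux_X_mem v, Subring.one_mem _⟩
      · subst hk
        rw [UV_odd]
        have h := ih k (by omega)
        have h' := ih (k + 1) (by omega)
        exact integral_aux_dadd_mem v hα hβ h.1 h.2 h'.1 h'.2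

theorem UV_coeff_le_one {K : Type*} [Field K] {Γ₀ : Type*} [LinearOrderedCommGroupWithZero Γ₀]
    (v : Valuation K Γ₀) {α β : K} (hα : v α ≤ 1) (hβ : v β ≤ 1) (n i : ℕ) :
    v ((UV α β n).1.coeff i) ≤ 1 ∧ v ((UV α β n).2.coeff i) ≤ 1 := by
  have h := integral_aux_UV_mem v hα hβ n
  exact ⟨h.1 i, h.2 i⟩

theorem wpoly_coeff_le_one {K : Type*} [Field K] {Γ₀ : Type*}
    [LinearOrderedCommGroupWithZero Γ₀] (v : Valuation K Γ₀) {α β : K} (hα : v α ≤ 1)
    (hβ : v β ≤ 1) (k i : ℕ) :
    v ((wpoly (UV α β k) (UV α β (k + 1))).coeff i) ≤ 1 := by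
  have h := integral_aux_UV_mem v hα hβ k
  have h' := integral_aux_UV_mem v hα hβ (k + 1)
  exact integral_aux_wpoly_mem v h.1 h.2 h'.1 h'.2 i

end Fermat.Agent.S13.LadderH
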