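import Mathlib
import Fermat.Agent.S13.LadderH.SpecUV
import Fermat.Agent.S13.LadderH.Degree
import Fermat.Agent.S13.LadderH.Integral
import Fermat.Agent.S13.LadderH.Peel

/-!
# S13 / LadderH / SumLine (helper12): `sum_formula_cz'` and `line_eq_cz'`, assembled from the
leaves (`eval_wpoly_eq_zero_of_torsion`, `wpoly_degree`, `wpoly_coeff_le_one`,
`val_leadingCoeff_mul_prod_le_one`).  (`line_eq` adapted from helper10's `PCore/SumLine.lean`.)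
-/

set_option autoImplicit false

namespace Fermat.Agent.S13.LadderH

open Fermat.Agent.S05 Polynomial

theorem sum_formula_cz' {K : Type*} [Field K] [CharZero K] {α β : K} {G : Type*}
    [AddCommGroup G] (M : Model K α β G) {Γ₀ : Type*} [LinearOrderedCommGroupWithZero Γ₀]
    (v : Valuation K Γ₀) (hvα : v α ≤ 1) (hvβ : v β ≤ 1) {p : ℕ} (hp : p.Prime) (hp5 : 5 ≤ p)
    (S : Finset K)
    (hS : ∀ x ∈ S, 1 < v x ∧ ∃ (Q : G) (Y : K), M.coord Q = some (x, Y) ∧ p • Q = 0) :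
    v (p : K) * ∏ x ∈ S, v x ≤ 1 := by
  have h2 : (2 : K) ≠ 0 := two_ne_zero
  have hodd : Odd p := hp.odd_of_ne_two (by omega)
  obtain ⟨k, rfl⟩ := hodd
  have h := val_leadingCoeff_mul_prod_le_one v (wpoly (UV α β k) (UV α β (k + 1)))
    (fun i => wpoly_coeff_le_one v hvα hvβ k i) S (fun r hr => by
      obtain ⟨h1, Q, Y, hQ, hpQ⟩ := hS r hr
      exact ⟨eval_wpoly_eq_zero_of_torsion M h2 hQ hpQ, h1⟩)
  rwa [(wpoly_degree α β k).2, Valuation.map_neg] at h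

private theorem one_lt_prod_of_mem {Γ₀ : Type*} [LinearOrderedCommGroupWithZero Γ₀] {ι : Type*}
    [DecidableEq ι] (S : Finset ι) (f : ι → Γ₀) (hf : ∀ x ∈ S, 1 < f x) {x₀ : ι} (hx₀ : x₀ ∈ S) :
    1 < ∏ x ∈ S, f x := by
  have h1 : (1 : Γ₀) ≤ ∏ x ∈ S.erase x₀, f x :=
    Finset.one_le_prod' (fun x hx => (hf x (Finset.mem_of_mem_erase hx)).le)
  rw [← Finset.mul_prod_erase S f hx₀]
  calc (1 : Γ₀) = 1 * 1 := (one_mul 1).symm
    _ < f x₀ * 1 := by rw [one_mul, mul_one]; exact hf x₀ hx₀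
    _ ≤ f x₀ * ∏ x ∈ S.erase x₀, f x := mul_le_mul' le_rfl h1

theorem line_eq_cz' {K : Type*} [Field K] [CharZero K] {α β : K} {G : Type*} [AddCommGroup G]
    (M : Model K α β G) {Γ₀ : Type*} [LinearOrderedCommGroupWithZero Γ₀] (v : Valuation K Γ₀)
    (hvα : v α ≤ 1) (hvβ : v β ≤ 1) {p : ℕ} (hp : p.Prime) (hp5 : 5 ≤ p)
    (hvQ : ∀ q : ℚ, 1 < v (q : K) → 1 ≤ v (p : K) * v (q : K))
    (N : AddSubgroup G) (hNp : ∀ Q ∈ N, p • Q = 0) (hN0 : ∃ Q ∈ N, Q ≠ 0)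
    (hNG1 : ∀ Q ∈ N, Q ∈ M.G1 v)
    (S : Finset K) (hS : ∀ x : K, x ∈ S ↔ ∃ Q ∈ N, ∃ Y : K, M.coord Q = some (x, Y))
    (hrat : ∃ q : ℚ, (q : K) = ∏ x ∈ S, x) :
    ∀ Q : G, p • Q = 0 → Q ∈ M.G1 v → Q ∈ N := by
  classical
  intro Q hpQ hQG1
  by_contra hQN
  have hQ0 : Q ≠ 0 := fun h => hQN (h ▸ N.zero_mem)
  obtain ⟨X, Y, hQ⟩ := M.exists_coord_of_ne_zero hQ0
  have hX : 1 < v X := M.one_lt_of_mem_G1 v hQG1 hQ
  have hSv : ∀ x ∈ S, 1 < v x ∧ ∃ (Q : G) (Y : K), M.coord Q = some (x, Y) ∧ p • Q = 0 := by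
    intro x hx
    obtain ⟨Q', hQ'N, Y', hQ'⟩ := (hS x).mp hx
    exact ⟨M.one_lt_of_mem_G1 v (hNG1 Q' hQ'N) hQ', Q', Y', hQ', hNp Q' hQ'N⟩
  have hXS : X ∉ S := by
    intro hXS
    obtain ⟨Q', hQ'N, Y', hQ'⟩ := (hS X).mp hXS
    rcases M.eq_or_eq_neg_of_X_eq hQ' hQ with h | h
    · exact hQN (h ▸ hQ'N)
    · exact hQN (h ▸ N.neg_mem hQ'N)
  obtain ⟨Q₀, hQ₀N, hQ₀⟩ := hN0
  obtain ⟨X₀, Y₀, hc₀⟩ := M.exists_coord_of_ne_zero hQ₀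
  have hX₀S : X₀ ∈ S := (hS X₀).mpr ⟨Q₀, hQ₀N, Y₀, hc₀⟩
  have hprod : 1 < ∏ x ∈ S, v x :=
    one_lt_prod_of_mem S (fun x => v x) (fun x hx => (hSv x hx).1) hX₀S
  obtain ⟨q, hq⟩ := hrat
  have hvq : v (q : K) = ∏ x ∈ S, v x := by rw [hq, map_prod]
  have h1 : 1 ≤ v (p : K) * ∏ x ∈ S, v x := by
    rw [← hvq]
    exact hvQ q (by rw [hvq]; exact hprod)
  have h3 := sum_formula_cz' M v hvα hvβ hp hp5 (insert X S) (by
    intro x hx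
    rcases Finset.mem_insert.mp hx with rfl | hx
    · exact ⟨hX, Q, Y, hQ, hpQ⟩
    · exact hSv x hx)
  rw [Finset.prod_insert hXS] at h3
  have hpos : 0 < v (p : K) * ∏ x ∈ S, v x := lt_of_lt_of_le zero_lt_one h1
  have h4 : v (p : K) * ∏ x ∈ S, v x < v (p : K) * (v X * ∏ x ∈ S, v x) := by
    have e : v (p : K) * (v X * ∏ x ∈ S, v x) = v X * (v (p : K) * ∏ x ∈ S, v x) := by
      rw [mul_left_comm]
    rw [e]
    calc v (p : K) * ∏ x ∈ S, v x = 1 * (v (p : K) * ∏ x ∈ S, v x) := (one_mul _).symm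
      _ < v X * (v (p : K) * ∏ x ∈ S, v x) := mul_lt_mul_of_pos_right hX hpos
  exact absurd (lt_of_le_of_lt h1 h4) (not_lt.mpr h3)

end Fermat.Agent.S13.LadderH
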