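import Mathlib
import Fermat.Agent.S13.LadderH.Count
import Fermat.Agent.S13.LadderH.SumLine
import Fermat.Agent.S13.LadderH.Exists

/-!
# S13 / LadderH / Main (owner helper12): the hedge deliverables.

Characteristic-zero versions of the four theorems of `Iface/PCore.lean`, proved WITHOUT division
polynomials (no `DP_torsion`, no `DP_unit`): via the `x`-only Montgomery ladder polynomials
`UV α β n` of `LadderH/Defs.lean`.

Leaves (sorried until proved): `Nondeg.model_nondeg`, `SpecDbl.spec_dbl`, `SpecDadd.spec_dadd`,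
`DegDbl.deg_dbl`, `DegDadd.deg_dadd`, `Integral.wpoly_coeff_le_one`.  Everything else
(`SpecUV`, `Degree`, `Peel`, `Count`, `SumLine`, `Exists`, this file) is assembled and
machine-checked from these leaves.
-/

set_option autoImplicit false

namespace Fermat.Agent.S13.LadderH

open Fermat.Agent.S05

theorem torsion_finite_cz {K : Type*} [Field K] [CharZero K] {α β : K} {G : Type*}
    [AddCommGroup G] (M : Model K α β G) {p : ℕ} (hp : p.Prime) (hp5 : 5 ≤ p) :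
    {Q : G | p • Q = 0}.Finite ∧ {Q : G | p • Q = 0}.ncard ≤ p ^ 2 :=
  torsion_finite_cz' M hp hp5

theorem sum_formula_cz {K : Type*} [Field K] [CharZero K] {α β : K} {G : Type*}
    [AddCommGroup G] (M : Model K α β G) {Γ₀ : Type*} [LinearOrderedCommGroupWithZero Γ₀]
    (v : Valuation K Γ₀) (hvα : v α ≤ 1) (hvβ : v β ≤ 1) {p : ℕ} (hp : p.Prime) (hp5 : 5 ≤ p)
    (S : Finset K)
    (hS : ∀ x ∈ S, 1 < v x ∧ ∃ (Q : G) (Y : K), M.coord Q = some (x, Y) ∧ p • Q = 0) :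
    v (p : K) * ∏ x ∈ S, v x ≤ 1 :=
  sum_formula_cz' M v hvα hvβ hp hp5 S hS

theorem exists_torsion_cz {K : Type*} [Field K] [CharZero K] [IsAlgClosed K] {α β : K}
    {G : Type*} [AddCommGroup G] (M : Model K α β G) {p : ℕ} (hp : p.Prime) (hp5 : 5 ≤ p) :
    ∃ Q : G, Q ≠ 0 ∧ p • Q = 0 :=
  exists_torsion_cz' M hp hp5

theorem line_eq_cz {K : Type*} [Field K] [CharZero K] {α β : K} {G : Type*} [AddCommGroup G]
    (M : Model K α β G) {Γ₀ : Type*} [LinearOrderedCommGroupWithZero Γ₀] (v : Valuation K Γ₀)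
    (hvα : v α ≤ 1) (hvβ : v β ≤ 1) {p : ℕ} (hp : p.Prime) (hp5 : 5 ≤ p)
    (hvQ : ∀ q : ℚ, 1 < v (q : K) → 1 ≤ v (p : K) * v (q : K))
    (N : AddSubgroup G) (hNp : ∀ Q ∈ N, p • Q = 0) (hN0 : ∃ Q ∈ N, Q ≠ 0)
    (hNG1 : ∀ Q ∈ N, Q ∈ M.G1 v)
    (S : Finset K) (hS : ∀ x : K, x ∈ S ↔ ∃ Q ∈ N, ∃ Y : K, M.coord Q = some (x, Y))
    (hrat : ∃ q : ℚ, (q : K) = ∏ x ∈ S, x) :
    ∀ Q : G, p • Q = 0 → Q ∈ M.G1 v → Q ∈ N :=
  line_eq_cz' M v hvα hvβ hp hp5 hvQ N hNp hN0 hNG1 S hS hrat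

end Fermat.Agent.S13.LadderH
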